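/-
S52 / E6 (I-b), part 1 (helper12): Hensel recursion for a monic quartic
`Y^4 + A₂ Y^2 + A₁ Y + A₀` over `ℝ[X]` at a simple root of the constant-term quartic.
Mathlib only.
-/
import Mathlib

set_option autoImplicit false

namespace Fermat.Agent.S52.H12

open Polynomial

/-- The quartic `p^4 + A₂ p^2 + A₁ p + A₀` in `ℝ[X]`. -/
noncomputable def quart (A₂ A₁ A₀ p : ℝ[X]) : ℝ[X] := p ^ 4 + A₂ * p ^ 2 + A₁ * p + A₀

theorem quart_add (A₂ A₁ A₀ p t : ℝ[X]) :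
    quart A₂ A₁ A₀ (p + t) = quart A₂ A₁ A₀ p + t * (4 * p ^ 3 + 2 * A₂ * p + A₁)
      + t ^ 2 * (6 * p ^ 2 + A₂ + 4 * p * t + t ^ 2) := by
  unfold quart; ring

theorem hensel_step (A₂ A₁ A₀ p : ℝ[X]) (k : ℕ)
    (hdvd : X ^ (k + 1) ∣ quart A₂ A₁ A₀ p)
    (hder : (4 * p ^ 3 + 2 * A₂ * p + A₁).eval 0 ≠ 0) :
    ∃ c : ℝ, X ^ (k + 2) ∣ quart A₂ A₁ A₀ (p + C c * X ^ (k + 1)) := by
  obtain ⟨q, hq⟩ := hdvd
  set H : ℝ[X] := 4 * p ^ 3 + 2 * A₂ * p + A₁ with hH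
  refine ⟨-(q.eval 0) / H.eval 0, ?_⟩
  set c : ℝ := -(q.eval 0) / H.eval 0 with hc
  rw [quart_add, hq]
  have h1 : (X : ℝ[X]) ∣ q + C c * H := by
    rw [X_dvd_iff, coeff_zero_eq_eval_zero]
    simp only [eval_add, eval_mul, eval_C]
    rw [hc]; field_simp; ring
  obtain ⟨r, hr⟩ := h1
  have e1 : X ^ (k + 1) * q + C c * X ^ (k + 1) * H = X ^ (k + 2) * r := by
    have : X ^ (k + 1) * q + C c * X ^ (k + 1) * H = X ^ (k + 1) * (q + C c * H) := by ring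
    rw [this, hr]; ring
  rw [e1]
  have e2 : (C c * X ^ (k + 1)) ^ 2 = X ^ (k + 2) * (C c ^ 2 * X ^ k) := by ring
  rw [e2]
  exact dvd_add (dvd_mul_right _ _) (dvd_mul_of_dvd_left (dvd_mul_right _ _) _)

theorem exists_hensel (A₂ A₁ A₀ : ℝ[X]) (η : ℝ)
    (hη : η ^ 4 + A₂.eval 0 * η ^ 2 + A₁.eval 0 * η + A₀.eval 0 = 0)
    (hη' : 4 * η ^ 3 + 2 * A₂.eval 0 * η + A₁.eval 0 ≠ 0) (k : ℕ) :
    ∃ p : ℝ[X], p.natDegree ≤ k ∧ p.eval 0 = η ∧ X ^ (k + 1) ∣ quart A₂ A₁ A₀ p := by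
  induction k with
  | zero =>
    refine ⟨C η, by simp, by simp, ?_⟩
    rw [zero_add, pow_one, X_dvd_iff, coeff_zero_eq_eval_zero]
    simp [quart, hη]
  | succ k ih =>
    obtain ⟨p, hdeg, hp0, hdvd⟩ := ih
    have hder : (4 * p ^ 3 + 2 * A₂ * p + A₁).eval 0 ≠ 0 := by
      simpa [hp0] using hη'
    obtain ⟨c, hc⟩ := hensel_step A₂ A₁ A₀ p k hdvd hder
    refine ⟨p + C c * X ^ (k + 1), ?_, ?_, hc⟩
    · refine (natDegree_add_le _ _).trans (max_le (hdeg.trans (Nat.le_succ k)) ?_)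
      exact (natDegree_C_mul_le _ _).trans (natDegree_X_pow_le _)
    · simp [hp0]

end Fermat.Agent.S52.H12
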