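/-
S52 / E6 (I-b), part 3 (helper12): real-analytic estimates for the roots of
`z^4 + B₂(ε) z^2 + B₁(ε) z + B₀(ε)` for small `ε`, where `B_j ∈ ℝ[X]`.
Mathlib only (+ the Hensel recursion of `Hensel.lean`).
-/
import Mathlib
import Fermat.Agent.S52.H12.Hensel

set_option autoImplicit false

namespace Fermat.Agent.S52.H12

open Polynomial

/-- `G(ε, z) = z^4 + B₂(ε) z^2 + B₁(ε) z + B₀(ε)`. -/
noncomputable def gval (B₂ B₁ B₀ : ℝ[X]) (ε z : ℝ) : ℝ :=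
  z ^ 4 + B₂.eval ε * z ^ 2 + B₁.eval ε * z + B₀.eval ε

theorem exists_bound_eval (P : ℝ[X]) : ∃ M : ℝ, 0 ≤ M ∧ ∀ ε : ℝ, |ε| ≤ 1 → |P.eval ε| ≤ M := by
  obtain ⟨C, hC⟩ := (isCompact_Icc (a := (-1 : ℝ)) (b := 1)).exists_bound_of_continuousOn
    P.continuous.continuousOn
  refine ⟨max C 0, le_max_right _ _, fun ε hε => ?_⟩
  have := hC ε (by rw [Set.mem_Icc]; exact abs_le.mp hε)
  rw [Real.norm_eq_abs] at this
  exact this.trans (le_max_left _ _)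

theorem exists_lipschitz_eval (P : ℝ[X]) :
    ∃ L : ℝ, 0 ≤ L ∧ ∀ ε : ℝ, |ε| ≤ 1 → |P.eval ε - P.eval 0| ≤ L * |ε| := by
  obtain ⟨q, hq⟩ : (X : ℝ[X]) ∣ P - C (P.eval 0) := by
    rw [X_dvd_iff]; simp [coeff_zero_eq_eval_zero]
  obtain ⟨L, hL0, hL⟩ := exists_bound_eval q
  refine ⟨L, hL0, fun ε hε => ?_⟩
  have h1 : P.eval ε - P.eval 0 = ε * q.eval ε := by
    have := congrArg (Polynomial.eval ε) hq
    simpa using this
  rw [h1, abs_mul, mul_comm]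
  exact mul_le_mul_of_nonneg_right (hL ε hε) (abs_nonneg _)

theorem root_bound (B₂ B₁ B₀ : ℝ[X]) :
    ∃ B : ℝ, 0 ≤ B ∧ ∀ ε z : ℝ, |ε| ≤ 1 → gval B₂ B₁ B₀ ε z = 0 → |z| ≤ B := by
  obtain ⟨M₂, h20, h2⟩ := exists_bound_eval B₂
  obtain ⟨M₁, h10, h1⟩ := exists_bound_eval B₁
  obtain ⟨M₀, h00, h0⟩ := exists_bound_eval B₀
  refine ⟨max 1 (M₂ + M₁ + M₀), le_trans zero_le_one (le_max_left _ _), fun ε z hε hz => ?_⟩
  by_contra hcon
  rw [not_le, max_lt_iff] at hcon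
  obtain ⟨hz1, hzM⟩ := hcon
  have hb2 := h2 ε hε
  have hb1 := h1 ε hε
  have hb0 := h0 ε hε
  have hz4 : z ^ 4 = -(B₂.eval ε * z ^ 2 + B₁.eval ε * z + B₀.eval ε) := by
    unfold gval at hz; linarith
  have habs : |z| ^ 4 ≤ M₂ * |z| ^ 2 + M₁ * |z| + M₀ := by
    have e : |z| ^ 4 = |z ^ 4| := by rw [abs_pow]
    rw [e, hz4, abs_neg]
    calc |B₂.eval ε * z ^ 2 + B₁.eval ε * z + B₀.eval ε|
        ≤ |B₂.eval ε * z ^ 2| + |B₁.eval ε * z| + |B₀.eval ε| := abs_add_three _ _ _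
      _ ≤ M₂ * |z| ^ 2 + M₁ * |z| + M₀ := by
          rw [abs_mul, abs_mul, abs_pow]
          have := mul_le_mul_of_nonneg_right hb2 (pow_nonneg (abs_nonneg z) 2)
          have := mul_le_mul_of_nonneg_right hb1 (abs_nonneg z)
          linarith
  have hzpos : 0 < |z| := lt_trans zero_lt_one hz1
  have hsq : |z| ≤ |z| ^ 2 := by nlinarith
  have hsq1 : 1 ≤ |z| ^ 2 := by nlinarith
  have hle : M₂ * |z| ^ 2 + M₁ * |z| + M₀ ≤ (M₂ + M₁ + M₀) * |z| ^ 2 := by nlinarith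
  have hlt : (M₂ + M₁ + M₀) * |z| ^ 2 < |z| ^ 4 := by
    have h4 : |z| ^ 4 = |z| ^ 2 * |z| ^ 2 := by ring
    have hM : M₂ + M₁ + M₀ < |z| ^ 2 := lt_of_lt_of_le hzM hsq
    have hpos : 0 < |z| ^ 2 := by positivity
    rw [h4]
    exact mul_lt_mul_of_pos_right hM hpos
  linarith

/-- For small `ε`, every root of `G(ε, ·)` is close to a root of `G(0, ·)`. -/
theorem root_near (B₂ B₁ B₀ : ℝ[X]) (ρ : ℝ) (hρ : 0 < ρ) :
    ∃ ε₁ : ℝ, 0 < ε₁ ∧ ∀ ε z : ℝ, |ε| ≤ ε₁ → gval B₂ B₁ B₀ ε z = 0 →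
      ∃ η : ℝ, gval B₂ B₁ B₀ 0 η = 0 ∧ |z - η| < ρ := by
  obtain ⟨B, hB0, hB⟩ := root_bound B₂ B₁ B₀
  obtain ⟨L₂, hL20, hL2⟩ := exists_lipschitz_eval B₂
  obtain ⟨L₁, hL10, hL1⟩ := exists_lipschitz_eval B₁
  obtain ⟨L₀, hL00, hL0⟩ := exists_lipschitz_eval B₀
  set Λ : ℝ := L₂ * B ^ 2 + L₁ * B + L₀ with hΛ
  have hΛ0 : 0 ≤ Λ := by positivity
  -- the compact set of points far from all roots
  set K : Set ℝ := Metric.closedBall (0 : ℝ) B ∩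
    ⋂ η ∈ {η : ℝ | gval B₂ B₁ B₀ 0 η = 0}, {z : ℝ | ρ ≤ |z - η|} with hK
  have hKc : IsCompact K := by
    apply (isCompact_closedBall (0 : ℝ) B).inter_right
    apply isClosed_biInter
    intro η _
    exact isClosed_le continuous_const (continuous_abs.comp (continuous_id.sub continuous_const))
  have hcont : Continuous fun z : ℝ => |gval B₂ B₁ B₀ 0 z| := by
    unfold gval; fun_prop
  -- key estimate
  have hkey : ∀ ε z : ℝ, |ε| ≤ 1 → gval B₂ B₁ B₀ ε z = 0 →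
      |z| ≤ B ∧ |gval B₂ B₁ B₀ 0 z| ≤ Λ * |ε| := by
    intro ε z hε hz
    have hzB := hB ε z hε hz
    refine ⟨hzB, ?_⟩
    have e : gval B₂ B₁ B₀ 0 z = -((B₂.eval ε - B₂.eval 0) * z ^ 2 + (B₁.eval ε - B₁.eval 0) * z
        + (B₀.eval ε - B₀.eval 0)) := by
      unfold gval at hz ⊢; linarith
    rw [e, abs_neg]
    calc |(B₂.eval ε - B₂.eval 0) * z ^ 2 + (B₁.eval ε - B₁.eval 0) * z
          + (B₀.eval ε - B₀.eval 0)|
        ≤ |(B₂.eval ε - B₂.eval 0) * z ^ 2| + |(B₁.eval ε - B₁.eval 0) * z|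
          + |B₀.eval ε - B₀.eval 0| := abs_add_three _ _ _
      _ ≤ L₂ * |ε| * B ^ 2 + L₁ * |ε| * B + L₀ * |ε| := by
          rw [abs_mul, abs_mul, abs_pow]
          have a2 := hL2 ε hε
          have a1 := hL1 ε hε
          have a0 := hL0 ε hε
          have hz2 : |z| ^ 2 ≤ B ^ 2 := pow_le_pow_left₀ (abs_nonneg z) hzB 2
          have b2 : |B₂.eval ε - B₂.eval 0| * |z| ^ 2 ≤ L₂ * |ε| * B ^ 2 :=
            mul_le_mul a2 hz2 (by positivity) (by positivity)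
          have b1 : |B₁.eval ε - B₁.eval 0| * |z| ≤ L₁ * |ε| * B :=
            mul_le_mul a1 hzB (abs_nonneg z) (by positivity)
          linarith
      _ = Λ * |ε| := by rw [hΛ]; ring
  have hnotK : ∀ z : ℝ, |z| ≤ B → z ∉ K → ∃ η : ℝ, gval B₂ B₁ B₀ 0 η = 0 ∧ |z - η| < ρ := by
    intro z hzB hzK
    by_contra hcon
    push Not at hcon
    apply hzK
    refine ⟨by simpa [Metric.mem_closedBall, Real.dist_eq] using hzB, ?_⟩
    simp only [Set.mem_iInter]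
    intro η hη
    exact hcon η hη
  by_cases hKne : K.Nonempty
  · obtain ⟨z₀, hz₀K, hz₀min⟩ := hKc.exists_isMinOn hKne hcont.continuousOn
    have hm : 0 < |gval B₂ B₁ B₀ 0 z₀| := by
      rw [abs_pos]
      intro h0
      have h1 : z₀ ∈ ⋂ η ∈ {η : ℝ | gval B₂ B₁ B₀ 0 η = 0}, {z : ℝ | ρ ≤ |z - η|} := hz₀K.2
      simp only [Set.mem_iInter] at h1
      have := h1 z₀ h0
      simp only [Set.mem_ofPred_eq, sub_self, abs_zero] at this
      linarith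
    set m : ℝ := |gval B₂ B₁ B₀ 0 z₀| with hmdef
    refine ⟨min 1 (m / (2 * (Λ + 1))), lt_min one_pos (by positivity), fun ε z hε hz => ?_⟩
    have hε1 : |ε| ≤ 1 := hε.trans (min_le_left _ _)
    have hε2 : |ε| ≤ m / (2 * (Λ + 1)) := hε.trans (min_le_right _ _)
    obtain ⟨hzB, hsmall⟩ := hkey ε z hε1 hz
    apply hnotK z hzB
    intro hzK
    have hmin : m ≤ |gval B₂ B₁ B₀ 0 z| := hz₀min hzK
    have hlt : Λ * |ε| < m := by
      have h1 : Λ * |ε| ≤ Λ * (m / (2 * (Λ + 1))) := mul_le_mul_of_nonneg_left hε2 hΛ0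
      have h2 : Λ * (m / (2 * (Λ + 1))) < m := by
        have hpos : 0 < 2 * (Λ + 1) := by positivity
        rw [← mul_div_assoc, div_lt_iff₀ hpos]
        nlinarith
      linarith
    linarith
  · refine ⟨1, one_pos, fun ε z hε hz => ?_⟩
    obtain ⟨hzB, -⟩ := hkey ε z hε hz
    exact hnotK z hzB (fun hzK => hKne ⟨z, hzK⟩)

end Fermat.Agent.S52.H12
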