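/-
S52 / E6 (I-b), part 4 (helper12): polynomial approximation of the roots of
`y^4 + A₂(n) y^2 + A₁(n) y + A₀(n)` for large `n`.
Mathlib only (+ `Hensel.lean`, `Analytic.lean`).
-/
import Mathlib
import Fermat.Agent.S52.H12.Analytic

set_option autoImplicit false

namespace Fermat.Agent.S52.H12

open Polynomial

/-- Local estimate near a simple root `η` of `G(0, ·)`. -/
theorem local_est (B₂ B₁ B₀ p : ℝ[X]) (k : ℕ) (η : ℝ) (hp0 : p.eval 0 = η)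
    (hdvd : X ^ (k + 1) ∣ quart B₂ B₁ B₀ p)
    (hder : 4 * η ^ 3 + 2 * B₂.eval 0 * η + B₁.eval 0 ≠ 0) :
    ∃ ρ : ℝ, 0 < ρ ∧ ∃ ε₂ : ℝ, 0 < ε₂ ∧ ∃ C : ℝ, 0 ≤ C ∧ ∀ ε z : ℝ, |ε| ≤ ε₂ → |z - η| < ρ →
      gval B₂ B₁ B₀ ε z = 0 → |z - p.eval ε| ≤ C * |ε| ^ (k + 1) := by
  obtain ⟨Q, hQ⟩ := hdvd
  obtain ⟨M, hM0, hM⟩ := exists_bound_eval Q
  set D : ℝ := 4 * η ^ 3 + 2 * B₂.eval 0 * η + B₁.eval 0 with hD
  have hDpos : 0 < |D| := abs_pos.mpr hder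
  let T : ℝ × ℝ → ℝ := fun x => x.2 ^ 3 + x.2 ^ 2 * p.eval x.1 + x.2 * (p.eval x.1) ^ 2
    + (p.eval x.1) ^ 3 + B₂.eval x.1 * (x.2 + p.eval x.1) + B₁.eval x.1
  have hT : Continuous T := by
    have h1 : Continuous fun x : ℝ × ℝ => p.eval x.1 := p.continuous.comp continuous_fst
    have h2 : Continuous fun x : ℝ × ℝ => B₂.eval x.1 := B₂.continuous.comp continuous_fst
    have h3 : Continuous fun x : ℝ × ℝ => B₁.eval x.1 := B₁.continuous.comp continuous_fst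
    fun_prop
  have hT0 : T (0, η) = D := by
    simp only [T, hp0, hD]; ring
  obtain ⟨r, hr0, hr⟩ := Metric.continuousAt_iff.mp hT.continuousAt (|D| / 2) (by positivity)
  have hid : ∀ ε z : ℝ, gval B₂ B₁ B₀ ε z - (quart B₂ B₁ B₀ p).eval ε
      = (z - p.eval ε) * T (ε, z) := by
    intro ε z
    simp only [gval, quart, T, eval_add, eval_mul, eval_pow]
    ring
  refine ⟨r, hr0, min (r / 2) 1, lt_min (by positivity) one_pos, 2 * M / |D|, by positivity, ?_⟩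
  intro ε z hε hz hroot
  have hε1 : |ε| ≤ 1 := hε.trans (min_le_right _ _)
  have hεr : |ε| < r := lt_of_le_of_lt (hε.trans (min_le_left _ _)) (by linarith)
  have hdist : dist ((ε, z) : ℝ × ℝ) (0, η) < r := by
    rw [Prod.dist_eq]
    simp only [Real.dist_eq, sub_zero]
    exact max_lt hεr hz
  have hTclose := hr hdist
  rw [hT0, Real.dist_eq] at hTclose
  have hTlow : |D| / 2 ≤ |T (ε, z)| := by
    have h1 : |D| - |T (ε, z)| ≤ |T (ε, z) - D| := by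
      have := abs_sub_abs_le_abs_sub D (T (ε, z))
      rwa [abs_sub_comm D] at this
    linarith
  have hq : (quart B₂ B₁ B₀ p).eval ε = ε ^ (k + 1) * Q.eval ε := by
    rw [hQ]; simp
  have hprod : (z - p.eval ε) * T (ε, z) = -(ε ^ (k + 1) * Q.eval ε) := by
    rw [← hid, hroot, hq]; ring
  have habs : |z - p.eval ε| * |T (ε, z)| ≤ M * |ε| ^ (k + 1) := by
    rw [← abs_mul, hprod, abs_neg, abs_mul, abs_pow, mul_comm]
    exact mul_le_mul_of_nonneg_right (hM ε hε1) (by positivity)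
  have hTpos : 0 < |T (ε, z)| := lt_of_lt_of_le (by positivity) hTlow
  have h1 : |z - p.eval ε| * (|D| / 2) ≤ M * |ε| ^ (k + 1) :=
    (mul_le_mul_of_nonneg_left hTlow (abs_nonneg _)).trans habs
  have h2 : |z - p.eval ε| ≤ M * |ε| ^ (k + 1) / (|D| / 2) := by
    rw [le_div_iff₀ (by positivity)]; exact h1
  calc |z - p.eval ε| ≤ M * |ε| ^ (k + 1) / (|D| / 2) := h2
    _ = 2 * M / |D| * |ε| ^ (k + 1) := by field_simp

theorem exists_pos_le_finset (s : Finset ℝ) (f : ℝ → ℝ) (hf : ∀ η ∈ s, 0 < f η) :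
    ∃ m : ℝ, 0 < m ∧ ∀ η ∈ s, m ≤ f η := by
  classical
  induction s using Finset.induction_on with
  | empty => exact ⟨1, one_pos, by simp⟩
  | insert a s ha ih =>
    obtain ⟨m, hm0, hm⟩ := ih (fun η hη => hf η (Finset.mem_insert_of_mem hη))
    refine ⟨min m (f a), lt_min hm0 (hf a (Finset.mem_insert_self a s)), fun η hη => ?_⟩
    rcases Finset.mem_insert.mp hη with rfl | h
    · exact min_le_right _ _
    · exact (min_le_left _ _).trans (hm η h)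

/-- Global statement in the variable `ε`. -/
theorem exists_global_approx (B₂ B₁ B₀ : ℝ[X]) (k : ℕ)
    (hsep : ∀ η : ℝ, gval B₂ B₁ B₀ 0 η = 0 → 4 * η ^ 3 + 2 * B₂.eval 0 * η + B₁.eval 0 ≠ 0) :
    ∃ (s : Finset ℝ) (p : ℝ → ℝ[X]) (C ε₃ : ℝ), 0 < ε₃ ∧ 0 ≤ C ∧
      (∀ η ∈ s, (p η).natDegree ≤ k) ∧
      ∀ ε z : ℝ, |ε| ≤ ε₃ → gval B₂ B₁ B₀ ε z = 0 →
        ∃ η ∈ s, |z - (p η).eval ε| ≤ C * |ε| ^ (k + 1) := by
  classical
  -- the finite set of roots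
  set fP : ℝ[X] := X ^ 4 + C (B₂.eval 0) * X ^ 2 + C (B₁.eval 0) * X + C (B₀.eval 0) with hfP
  have hfP0 : fP ≠ 0 := by
    intro h
    have := congrArg (fun q : ℝ[X] => q.coeff 4) h
    simp [hfP, coeff_X_pow] at this
  have hfin : {η : ℝ | fP.IsRoot η}.Finite := Polynomial.finite_setOfPred_isRoot hfP0
  have hroot_iff : ∀ η : ℝ, gval B₂ B₁ B₀ 0 η = 0 ↔ η ∈ hfin.toFinset := by
    intro η
    rw [Set.Finite.mem_toFinset]
    simp [hfP, gval, IsRoot]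
  -- local data
  have hloc : ∀ η : ℝ, gval B₂ B₁ B₀ 0 η = 0 → ∃ (p : ℝ[X]) (ρ ε₂ C : ℝ), p.natDegree ≤ k ∧
      0 < ρ ∧ 0 < ε₂ ∧ 0 ≤ C ∧ ∀ ε z : ℝ, |ε| ≤ ε₂ → |z - η| < ρ →
        gval B₂ B₁ B₀ ε z = 0 → |z - p.eval ε| ≤ C * |ε| ^ (k + 1) := by
    intro η hη
    obtain ⟨p, hdeg, hp0, hdvd⟩ := exists_hensel B₂ B₁ B₀ η (by simpa [gval] using hη)
      (hsep η hη) k
    obtain ⟨ρ, hρ, ε₂, hε₂, C, hC, h⟩ := local_est B₂ B₁ B₀ p k η hp0 hdvd (hsep η hη)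
    exact ⟨p, ρ, ε₂, C, hdeg, hρ, hε₂, hC, h⟩
  choose! p ρ ε₂ Cf hdeg hρ hε₂ hC hest using hloc
  set s : Finset ℝ := hfin.toFinset with hs
  have hs_root : ∀ η ∈ s, gval B₂ B₁ B₀ 0 η = 0 := fun η hη => (hroot_iff η).mpr hη
  obtain ⟨ρm, hρm0, hρm⟩ := exists_pos_le_finset s ρ (fun η hη => hρ η (hs_root η hη))
  obtain ⟨εm, hεm0, hεm⟩ := exists_pos_le_finset s ε₂ (fun η hη => hε₂ η (hs_root η hη))
  obtain ⟨ε₁, hε₁0, hnear⟩ := root_near B₂ B₁ B₀ ρm hρm0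
  refine ⟨s, p, ∑ η ∈ s, Cf η, min ε₁ εm, lt_min hε₁0 hεm0,
    Finset.sum_nonneg (fun η hη => hC η (hs_root η hη)), fun η hη => hdeg η (hs_root η hη), ?_⟩
  intro ε z hε hz
  obtain ⟨η, hη0, hηz⟩ := hnear ε z (hε.trans (min_le_left _ _)) hz
  have hηs : η ∈ s := (hroot_iff η).mp hη0
  refine ⟨η, hηs, ?_⟩
  have h1 := hest η hη0 ε z ((hε.trans (min_le_right _ _)).trans (hεm η hηs))
    (lt_of_lt_of_le hηz (hρm η hηs)) hz
  have h2 : Cf η ≤ ∑ η ∈ s, Cf η :=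
    Finset.single_le_sum (f := Cf) (fun i hi => hC i (hs_root i hi)) hηs
  exact h1.trans (mul_le_mul_of_nonneg_right h2 (by positivity))

theorem eval_reflect (f : ℝ[X]) (N : ℕ) (hf : f.natDegree ≤ N) (x : ℝ) (hx : x ≠ 0) :
    (reflect N f).eval x⁻¹ * x ^ N = f.eval x := by
  let _ : Invertible x := invertibleOfNonzero hx
  have := eval₂_reflect_mul_pow (RingHom.id ℝ) x N f hf
  simpa [eval₂_id, invOf_eq_inv] using this

theorem eval_reflect' (f : ℝ[X]) (N : ℕ) (hf : f.natDegree ≤ N) (x : ℝ) (hx : x ≠ 0) :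
    (reflect N f).eval x = f.eval x⁻¹ * x ^ N := by
  have h := eval_reflect f N hf x⁻¹ (inv_ne_zero hx)
  rw [inv_inv] at h
  rw [← h, mul_assoc, ← mul_pow, inv_mul_cancel₀ hx, one_pow, mul_one]

theorem eval_zero_reflect (f : ℝ[X]) (N : ℕ) : (reflect N f).eval 0 = f.coeff N := by
  rw [← coeff_zero_eq_eval_zero, coeff_reflect, revAt_zero]

/-- Polynomial approximation of the roots of `y^4 + A₂(n) y^2 + A₁(n) y + A₀(n)` for large
natural numbers `n`. -/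
theorem exists_approx_nat (A₂ A₁ A₀ : ℝ[X]) (d : ℕ) (h₂ : A₂.natDegree ≤ 2 * d)
    (h₁ : A₁.natDegree ≤ 3 * d) (h₀ : A₀.natDegree ≤ 4 * d)
    (hsep : ∀ η : ℝ, η ^ 4 + A₂.coeff (2 * d) * η ^ 2 + A₁.coeff (3 * d) * η
        + A₀.coeff (4 * d) = 0 →
      4 * η ^ 3 + 2 * A₂.coeff (2 * d) * η + A₁.coeff (3 * d) ≠ 0) :
    ∃ (s : Finset ℝ) (P : ℝ → ℝ[X]) (C : ℝ) (N₀ : ℕ), 0 < N₀ ∧ 0 ≤ C ∧
      (∀ η ∈ s, (P η).natDegree ≤ d) ∧
      ∀ n : ℕ, N₀ ≤ n → ∀ y : ℝ,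
        y ^ 4 + A₂.eval (n : ℝ) * y ^ 2 + A₁.eval (n : ℝ) * y + A₀.eval (n : ℝ) = 0 →
        ∃ η ∈ s, |y - (P η).eval (n : ℝ)| ≤ C / n := by
  set B₂ : ℝ[X] := reflect (2 * d) A₂ with hB₂
  set B₁ : ℝ[X] := reflect (3 * d) A₁ with hB₁
  set B₀ : ℝ[X] := reflect (4 * d) A₀ with hB₀
  have e2 : B₂.eval 0 = A₂.coeff (2 * d) := eval_zero_reflect _ _
  have e1 : B₁.eval 0 = A₁.coeff (3 * d) := eval_zero_reflect _ _
  have e0 : B₀.eval 0 = A₀.coeff (4 * d) := eval_zero_reflect _ _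
  obtain ⟨s, p, C, ε₃, hε₃, hC, hdeg, hmain⟩ := exists_global_approx B₂ B₁ B₀ d (by
    intro η hη
    rw [e2, e1]
    apply hsep
    simpa [gval, e2, e1, e0] using hη)
  refine ⟨s, fun η => reflect d (p η), C, ⌈1 / ε₃⌉₊ + 1, Nat.succ_pos _, hC, ?_, ?_⟩
  · intro η hη
    exact (natDegree_reflect_le).trans (max_le le_rfl (hdeg η hη))
  · intro n hn y hy
    have hn1 : (1 : ℝ) ≤ n := by
      have : 1 ≤ n := le_trans (Nat.succ_le_succ (Nat.zero_le _)) hn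
      exact_mod_cast this
    have hnpos : (0 : ℝ) < n := lt_of_lt_of_le one_pos hn1
    have hnne : (n : ℝ) ≠ 0 := hnpos.ne'
    set x : ℝ := (n : ℝ) with hx
    set ε : ℝ := x⁻¹ with hεdef
    have hεpos : 0 < ε := inv_pos.mpr hnpos
    have hεle : |ε| ≤ ε₃ := by
      rw [abs_of_pos hεpos, hεdef]
      have h1 : 1 / ε₃ ≤ x := by
        have : (⌈1 / ε₃⌉₊ : ℝ) ≤ (n : ℝ) := by
          have : ⌈1 / ε₃⌉₊ ≤ n := le_trans (Nat.le_succ _) hn
          exact_mod_cast this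
        exact (Nat.le_ceil _).trans this
      have h2 : x⁻¹ ≤ (1 / ε₃)⁻¹ := inv_anti₀ (by positivity) h1
      simpa using h2
    have r2 : B₂.eval ε * x ^ (2 * d) = A₂.eval x := eval_reflect A₂ _ h₂ x hnne
    have r1 : B₁.eval ε * x ^ (3 * d) = A₁.eval x := eval_reflect A₁ _ h₁ x hnne
    have r0 : B₀.eval ε * x ^ (4 * d) = A₀.eval x := eval_reflect A₀ _ h₀ x hnne
    have hεx : ε * x = 1 := inv_mul_cancel₀ hnne
    have hroot : gval B₂ B₁ B₀ ε (y * ε ^ d) = 0 := by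
      have key : gval B₂ B₁ B₀ ε (y * ε ^ d) * x ^ (4 * d)
          = (y ^ 4 + A₂.eval x * y ^ 2 + A₁.eval x * y + A₀.eval x) * (ε * x) ^ (4 * d) := by
        rw [← r2, ← r1, ← r0]
        simp only [gval]
        have p4 : x ^ (4 * d) = (x ^ d) ^ 4 := by rw [← pow_mul, mul_comm]
        have p3 : x ^ (3 * d) = (x ^ d) ^ 3 := by rw [← pow_mul, mul_comm]
        have p2 : x ^ (2 * d) = (x ^ d) ^ 2 := by rw [← pow_mul, mul_comm]
        have q4 : (ε * x) ^ (4 * d) = (ε ^ d) ^ 4 * (x ^ d) ^ 4 := by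
          rw [mul_pow, ← pow_mul, ← pow_mul, mul_comm d 4]
        rw [p4, p3, p2, q4]
        have hex : ε ^ d * x ^ d = 1 := by rw [← mul_pow, hεx, one_pow]
        generalize ε ^ d = E at hex ⊢
        generalize x ^ d = Xd at hex ⊢
        have hE4 : E ^ 4 * Xd ^ 4 = 1 := by rw [← mul_pow, hex, one_pow]
        have hE3 : E ^ 3 * Xd ^ 3 = 1 := by rw [← mul_pow, hex, one_pow]
        have hE2 : E ^ 2 * Xd ^ 2 = 1 := by rw [← mul_pow, hex, one_pow]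
        linear_combination (-(eval ε B₂ * y ^ 2 * E ^ 2 * Xd ^ 4)) * hE2
          + (-(eval ε B₁ * y * E * Xd ^ 4)) * hE3 + (-(eval ε B₀ * Xd ^ 4)) * hE4
      rw [hy, zero_mul] at key
      exact (mul_eq_zero.mp key).resolve_right (pow_ne_zero _ hnne)
    obtain ⟨η, hηs, hη⟩ := hmain ε (y * ε ^ d) hεle hroot
    refine ⟨η, hηs, ?_⟩
    have hP : (reflect d (p η)).eval x = (p η).eval ε * x ^ d :=
      eval_reflect' (p η) d (hdeg η hηs) x hnne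
    have hxd : 0 < x ^ d := pow_pos hnpos d
    have hex : ε ^ d * x ^ d = 1 := by rw [← mul_pow, hεx, one_pow]
    have e : y - (reflect d (p η)).eval x = (y * ε ^ d - (p η).eval ε) * x ^ d := by
      rw [hP, sub_mul, mul_assoc, hex, mul_one]
    rw [e, abs_mul, abs_of_pos hxd]
    calc |y * ε ^ d - (p η).eval ε| * x ^ d ≤ C * |ε| ^ (d + 1) * x ^ d :=
          mul_le_mul_of_nonneg_right hη hxd.le
      _ = C * ε * (ε ^ d * x ^ d) := by
          rw [abs_of_pos hεpos, pow_succ]; ring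
      _ = C / x := by
          rw [hex, mul_one, hεdef, div_eq_mul_inv]

end Fermat.Agent.S52.H12
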