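/-
S52 / E6 (I-b), part 2 (helper12): the discrete part.
* an integer sequence that stays within `1 / 2^(d+1)` of a real polynomial of degree `≤ d`
  on `L` consecutive indices agrees there with a rational polynomial of degree `≤ d`;
* van der Waerden in the form needed;
* a quartic expression of degree `≤ 4d` with more than `4d` roots vanishes.
Mathlib only.
-/
import Mathlib

set_option autoImplicit false

namespace Fermat.Agent.S52.H12

open Polynomial Finset

/-- The alternating binomial sum of a polynomial function of degree `< n` vanishes. -/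
theorem alt_sum_eval_eq_zero {R : Type*} [CommRing R] (P : R[X]) (n : ℕ) (hP : P.natDegree < n)
    (x : R) :
    ∑ k ∈ range (n + 1), ((-1 : ℤ) ^ (n - k) * (n.choose k : ℤ)) • P.eval (x + k • (1 : R)) = 0 := by
  have h := congrFun (Polynomial.fwdDiff_iter_eq_zero_of_degree_lt (R := R) hP) x
  rw [fwdDiff_iter_eq_sum_shift] at h
  simpa using h

/-- Coefficients of the `(d+1)`-st forward difference. -/
def dcoef (d k : ℕ) : ℤ := (-1 : ℤ) ^ (d + 1 - k) * ((d + 1).choose k : ℤ)

theorem dcoef_last (d : ℕ) : dcoef d (d + 1) = 1 := by simp [dcoef]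

theorem abs_dcoef (d k : ℕ) : |dcoef d k| = ((d + 1).choose k : ℤ) := by
  simp [dcoef, abs_mul, abs_pow]

theorem alt_sum_eval_eq_zero' {R : Type*} [CommRing R] (P : R[X]) (d : ℕ) (hP : P.natDegree ≤ d)
    (x : R) :
    ∑ k ∈ range (d + 2), (dcoef d k : R) * P.eval (x + (k : R)) = 0 := by
  have h := alt_sum_eval_eq_zero P (d + 1) (Nat.lt_succ_of_le hP) x
  simp only [zsmul_eq_mul, nsmul_eq_mul, mul_one] at h
  simpa [dcoef] using h

/-- If an integer sequence is within `1 / 2^(d+1)` of a real polynomial of degree `≤ d`, all its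
`(d+1)`-st forward differences vanish. -/
theorem fwd_diff_int_eq_zero (d : ℕ) (g : ℕ → ℤ) (U : ℝ[X]) (hU : U.natDegree ≤ d) (i : ℕ)
    (hclose : ∀ k < d + 2, |(g (i + k) : ℝ) - U.eval ((i + k : ℕ) : ℝ)| < 1 / 2 ^ (d + 1)) :
    ∑ k ∈ range (d + 2), dcoef d k * g (i + k) = 0 := by
  have hU0 := alt_sum_eval_eq_zero' U d hU (i : ℝ)
  have hreal : ((∑ k ∈ range (d + 2), dcoef d k * g (i + k) : ℤ) : ℝ)
      = ∑ k ∈ range (d + 2), (dcoef d k : ℝ) * ((g (i + k) : ℝ) - U.eval ((i + k : ℕ) : ℝ)) := by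
    have : ∑ k ∈ range (d + 2), (dcoef d k : ℝ) * ((g (i + k) : ℝ) - U.eval ((i + k : ℕ) : ℝ))
        = ∑ k ∈ range (d + 2), (dcoef d k : ℝ) * (g (i + k) : ℝ)
          - ∑ k ∈ range (d + 2), (dcoef d k : ℝ) * U.eval ((i : ℝ) + (k : ℝ)) := by
      rw [← Finset.sum_sub_distrib]
      refine Finset.sum_congr rfl fun k _ => ?_
      push_cast; ring
    rw [this, hU0, sub_zero]
    push_cast; rfl
  have hlt : |((∑ k ∈ range (d + 2), dcoef d k * g (i + k) : ℤ) : ℝ)| < 1 := by
    rw [hreal]
    calc |∑ k ∈ range (d + 2), (dcoef d k : ℝ) * ((g (i + k) : ℝ) - U.eval ((i + k : ℕ) : ℝ))|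
        ≤ ∑ k ∈ range (d + 2),
            |(dcoef d k : ℝ) * ((g (i + k) : ℝ) - U.eval ((i + k : ℕ) : ℝ))| :=
          Finset.abs_sum_le_sum_abs _ _
      _ < ∑ k ∈ range (d + 2), (((d + 1).choose k : ℕ) : ℝ) * (1 / 2 ^ (d + 1)) := by
          apply Finset.sum_lt_sum_of_nonempty (by simp)
          intro k hk
          rw [abs_mul]
          have h1 : |(dcoef d k : ℝ)| = (((d + 1).choose k : ℕ) : ℝ) := by
            have := abs_dcoef d k
            have h2 : |(dcoef d k : ℝ)| = ((|dcoef d k| : ℤ) : ℝ) := by push_cast; rfl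
            rw [h2, this]; push_cast; rfl
          rw [h1]
          have hpos : (0 : ℝ) < (((d + 1).choose k : ℕ) : ℝ) := by
            have : 0 < (d + 1).choose k :=
              Nat.choose_pos (Nat.lt_succ_iff.mp (Finset.mem_range.mp hk))
            exact_mod_cast this
          exact mul_lt_mul_of_pos_left (hclose k (Finset.mem_range.mp hk)) hpos
      _ = 1 := by
          rw [← Finset.sum_mul]
          have : (∑ k ∈ range (d + 2), (((d + 1).choose k : ℕ) : ℝ)) = 2 ^ (d + 1) := by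
            have := Nat.sum_range_choose (d + 1)
            exact_mod_cast this
          rw [this]; field_simp
  have hlt' : |∑ k ∈ range (d + 2), dcoef d k * g (i + k)| < 1 := by
    have : ((|∑ k ∈ range (d + 2), dcoef d k * g (i + k)| : ℤ) : ℝ) < 1 := by
      rw [Int.cast_abs]; exact hlt
    exact_mod_cast this
  exact Int.abs_lt_one_iff.mp hlt'

/-- An integer sequence within `1 / 2^(d+1)` of a real polynomial of degree `≤ d` on the first
`L` indices agrees there with a rational polynomial of degree `≤ d`. -/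
theorem int_seq_eq_poly (d L : ℕ) (g : ℕ → ℤ) (U : ℝ[X]) (hU : U.natDegree ≤ d)
    (hclose : ∀ j < L, |(g j : ℝ) - U.eval (j : ℝ)| < 1 / 2 ^ (d + 1)) :
    ∃ Q : ℚ[X], Q.natDegree ≤ d ∧ ∀ j < L, (g j : ℚ) = Q.eval (j : ℚ) := by
  classical
  have hinj : Set.InjOn (fun i : ℕ => (i : ℚ)) (range (d + 1) : Finset ℕ) :=
    fun a _ b _ h => by
      have h' : (a : ℚ) = (b : ℚ) := h
      exact_mod_cast h'
  set Q : ℚ[X] := Lagrange.interpolate (range (d + 1)) (fun i : ℕ => (i : ℚ))
    (fun i : ℕ => (g i : ℚ)) with hQ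
  have hdeg : Q.natDegree ≤ d := by
    have h := Lagrange.degree_interpolate_lt (r := fun i : ℕ => (g i : ℚ)) hinj
    rw [Finset.card_range] at h
    by_cases hQ0 : Q = 0
    · rw [hQ0]; simp
    · have := (Polynomial.natDegree_lt_iff_degree_lt hQ0).mpr h
      omega
  refine ⟨Q, hdeg, ?_⟩
  intro j
  induction j using Nat.strong_induction_on with
  | _ j ih =>
    intro hj
    by_cases hjd : j ≤ d
    · have := Lagrange.eval_interpolate_at_node (r := fun i : ℕ => (g i : ℚ)) hinj
        (Finset.mem_range.mpr (Nat.lt_succ_of_le hjd))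
      exact this.symm
    · obtain ⟨i, rfl⟩ : ∃ i, j = i + (d + 1) := ⟨j - (d + 1), by omega⟩
      have hg := fwd_diff_int_eq_zero d g U hU i (fun k hk => hclose (i + k) (by omega))
      have hq := alt_sum_eval_eq_zero' Q d hdeg (i : ℚ)
      rw [Finset.sum_range_succ, dcoef_last] at hg hq
      have hg' : (g (i + (d + 1)) : ℚ)
          = -∑ k ∈ range (d + 1), (dcoef d k : ℚ) * (g (i + k) : ℚ) := by
        have : ((∑ k ∈ range (d + 1), dcoef d k * g (i + k) + 1 * g (i + (d + 1)) : ℤ) : ℚ) = 0 := by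
          rw [hg]; simp
        push_cast at this
        linarith
      have hq' : Q.eval ((i : ℚ) + ((d + 1 : ℕ) : ℚ))
          = -∑ k ∈ range (d + 1), (dcoef d k : ℚ) * Q.eval ((i : ℚ) + (k : ℚ)) := by
        have h1 : ((1 : ℤ) : ℚ) = 1 := by norm_num
        rw [h1, one_mul] at hq
        linarith
      have hcast : ((i + (d + 1) : ℕ) : ℚ) = (i : ℚ) + ((d + 1 : ℕ) : ℚ) := by push_cast; ring
      rw [hcast, hq', hg']
      congr 1
      refine Finset.sum_congr rfl fun k hk => ?_
      have hk' := Finset.mem_range.mp hk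
      have := ih (i + k) (by omega) (by omega)
      rw [this]; push_cast; rfl

/-- van der Waerden, in the form used. -/
theorem exists_mono_ap {κ : Type*} [Finite κ] (col : ℕ → κ) (L : ℕ) :
    ∃ a > 0, ∃ b : ℕ, ∃ c : κ, ∀ s < L, col (a * s + b) = c := by
  obtain ⟨a, ha, b, c, h⟩ := Combinatorics.exists_mono_homothetic_copy (Finset.range L) col
  exact ⟨a, ha, b, c, fun s hs => by simpa using h s (Finset.mem_range.mpr hs)⟩

/-- A quartic expression of degree `≤ 4d` with more than `4d` roots vanishes identically. -/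
theorem quartic_zero_of_many_roots (A₂ A₁ A₀ Q : ℚ[X]) (d : ℕ) (h₂ : A₂.natDegree ≤ 2 * d)
    (h₁ : A₁.natDegree ≤ 3 * d) (h₀ : A₀.natDegree ≤ 4 * d) (hQ : Q.natDegree ≤ d)
    (s : Finset ℚ) (hs : 4 * d < s.card)
    (hroots : ∀ x ∈ s,
      (Q.eval x) ^ 4 + A₂.eval x * (Q.eval x) ^ 2 + A₁.eval x * Q.eval x + A₀.eval x = 0) :
    Q ^ 4 + A₂ * Q ^ 2 + A₁ * Q + A₀ = 0 := by
  apply Polynomial.eq_zero_of_natDegree_lt_card_of_eval_eq_zero' _ s
  · intro x hx
    simpa using hroots x hx
  · refine lt_of_le_of_lt ?_ hs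
    have e4 : (Q ^ 4).natDegree ≤ 4 * d :=
      (natDegree_pow_le).trans (Nat.mul_le_mul_left 4 hQ)
    have e2 : (A₂ * Q ^ 2).natDegree ≤ 4 * d := by
      refine (natDegree_mul_le).trans ?_
      have : (Q ^ 2).natDegree ≤ 2 * d := (natDegree_pow_le).trans (Nat.mul_le_mul_left 2 hQ)
      omega
    have e1 : (A₁ * Q).natDegree ≤ 4 * d := by
      refine (natDegree_mul_le).trans ?_
      omega
    refine (natDegree_add_le _ _).trans (max_le ?_ h₀)
    refine (natDegree_add_le _ _).trans (max_le ?_ e1)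
    exact (natDegree_add_le _ _).trans (max_le e4 e2)

end Fermat.Agent.S52.H12
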