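/-
S52 / E6 (I-b) (helper12): elementary Hilbert irreducibility, root version.

If the monic quartic `Y^4 + A₂ Y^2 + A₁ Y + A₀ ∈ ℚ[n][Y]` (`deg A_j ≤ (4-j) d`, leading form
with simple real roots) has no root in `ℚ[n]`, then every arithmetic progression contains
arbitrarily large integers `n` at which the specialised quartic has no integer root.
Mathlib only (+ the other files of this directory).
-/
import Mathlib
import Fermat.Agent.S52.H12.Approx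
import Fermat.Agent.S52.H12.Discrete

set_option autoImplicit false

namespace Fermat.Agent.S52.H12

open Polynomial

theorem eval_map_cast (A : ℚ[X]) (q : ℚ) :
    (A.map (algebraMap ℚ ℝ)).eval (q : ℝ) = ((A.eval q : ℚ) : ℝ) := by
  have h := Polynomial.eval_map_apply (p := A) (f := algebraMap ℚ ℝ) q
  simpa using h

theorem natDegree_lin_le {R : Type*} [CommRing R] (u v : R) :
    (C u + C v * X : R[X]).natDegree ≤ 1 :=
  (natDegree_add_le _ _).trans (max_le (by simp) ((natDegree_C_mul_le _ _).trans natDegree_X_le))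

/-- **Elementary Hilbert irreducibility, root version** (general weighted quartic). -/
theorem exists_int_no_root_quartic (A₂ A₁ A₀ : ℚ[X]) (d : ℕ)
    (h₂ : A₂.natDegree ≤ 2 * d) (h₁ : A₁.natDegree ≤ 3 * d) (h₀ : A₀.natDegree ≤ 4 * d)
    (hsep : ∀ η : ℝ, η ^ 4 + (A₂.coeff (2 * d) : ℝ) * η ^ 2 + (A₁.coeff (3 * d) : ℝ) * η
        + (A₀.coeff (4 * d) : ℝ) = 0 →
      4 * η ^ 3 + 2 * (A₂.coeff (2 * d) : ℝ) * η + (A₁.coeff (3 * d) : ℝ) ≠ 0)
    (hno : ∀ Q : ℚ[X], Q ^ 4 + A₂ * Q ^ 2 + A₁ * Q + A₀ ≠ 0)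
    (n₀ D K : ℤ) (hD : 0 < D) :
    ∃ n : ℤ, K ≤ n ∧ n ≡ n₀ [ZMOD D] ∧
      ∀ y : ℤ, (y : ℚ) ^ 4 + A₂.eval (n : ℚ) * (y : ℚ) ^ 2 + A₁.eval (n : ℚ) * (y : ℚ)
        + A₀.eval (n : ℚ) ≠ 0 := by
  classical
  by_contra hcon
  push Not at hcon
  -- real polynomials
  set R₂ : ℝ[X] := A₂.map (algebraMap ℚ ℝ) with hR₂
  set R₁ : ℝ[X] := A₁.map (algebraMap ℚ ℝ) with hR₁
  set R₀ : ℝ[X] := A₀.map (algebraMap ℚ ℝ) with hR₀
  obtain ⟨s, P, C₀, N₀, hN₀, hC₀, hdeg, happrox⟩ := exists_approx_nat R₂ R₁ R₀ d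
    ((natDegree_map_le).trans h₂) ((natDegree_map_le).trans h₁) ((natDegree_map_le).trans h₀)
    (by
      intro η hη
      have := hsep η (by simpa [hR₂, hR₁, hR₀, coeff_map] using hη)
      simpa [hR₂, hR₁, coeff_map] using this)
  -- the starting point of the progression
  obtain ⟨T, hT⟩ : ∃ T : ℕ, C₀ * 2 ^ (d + 1) < (T : ℝ) := exists_nat_gt _
  set t : ℕ := n₀.natAbs + K.natAbs + N₀ + T + 1 with ht
  have hD1 : (1 : ℤ) ≤ D := hD
  have hbig : (n₀.natAbs : ℤ) + (K.natAbs : ℤ) + (N₀ : ℤ) + (T : ℤ) + 1 ≤ (t : ℤ) * D := by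
    have h1 : (t : ℤ) ≤ (t : ℤ) * D := by nlinarith [Int.natCast_nonneg t]
    have h2 : (t : ℤ) = (n₀.natAbs : ℤ) + (K.natAbs : ℤ) + (N₀ : ℤ) + (T : ℤ) + 1 := by
      rw [ht]; push_cast; ring
    linarith
  have hn₀abs : -(n₀.natAbs : ℤ) ≤ n₀ := by
    have := neg_abs_le n₀
    rwa [Int.abs_eq_natAbs] at this
  have hKabs : K ≤ (K.natAbs : ℤ) := by
    have := le_abs_self K
    rwa [Int.abs_eq_natAbs] at this
  have hn₁nonneg : 0 ≤ n₀ + (t : ℤ) * D := by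
    have := Int.natCast_nonneg K.natAbs
    have := Int.natCast_nonneg N₀
    have := Int.natCast_nonneg T
    linarith
  obtain ⟨n₁, hn₁⟩ : ∃ n₁ : ℕ, (n₁ : ℤ) = n₀ + (t : ℤ) * D :=
    ⟨(n₀ + (t : ℤ) * D).toNat, Int.toNat_of_nonneg hn₁nonneg⟩
  obtain ⟨Dn, hDn⟩ : ∃ Dn : ℕ, (Dn : ℤ) = D := ⟨D.toNat, Int.toNat_of_nonneg hD.le⟩
  have hDnpos : 0 < Dn := by
    have : (0 : ℤ) < (Dn : ℤ) := by rw [hDn]; exact hD
    exact_mod_cast this
  set ν : ℕ → ℕ := fun k => n₁ + k * Dn with hν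
  have hνint : ∀ k : ℕ, ((ν k : ℕ) : ℤ) = n₀ + ((t : ℤ) + k) * D := by
    intro k
    simp only [hν]
    push_cast
    rw [hn₁, hDn]; ring
  have hνK : ∀ k : ℕ, K ≤ ((ν k : ℕ) : ℤ) := by
    intro k
    rw [hνint]
    have h1 : (0 : ℤ) ≤ (k : ℤ) * D := mul_nonneg (Int.natCast_nonneg k) hD.le
    have := Int.natCast_nonneg N₀
    have := Int.natCast_nonneg T
    nlinarith
  have hνmod : ∀ k : ℕ, ((ν k : ℕ) : ℤ) ≡ n₀ [ZMOD D] := by
    intro k
    rw [hνint]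
    have : n₀ + ((t : ℤ) + k) * D ≡ n₀ + 0 [ZMOD D] :=
      Int.ModEq.add_left n₀ ((Int.modEq_zero_iff_dvd).mpr (dvd_mul_left D _))
    rw [add_zero] at this
    exact this
  have hνge : ∀ k : ℕ, N₀ + T + 1 ≤ ν k := by
    intro k
    have h : ((N₀ + T + 1 : ℕ) : ℤ) ≤ ((ν k : ℕ) : ℤ) := by
      rw [hνint]
      have h1 : (0 : ℤ) ≤ (k : ℤ) * D := mul_nonneg (Int.natCast_nonneg k) hD.le
      have := Int.natCast_nonneg K.natAbs
      push_cast
      nlinarith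
    exact_mod_cast h
  -- the integer roots along the progression
  choose y hy using fun k : ℕ => hcon ((ν k : ℕ) : ℤ) (hνK k) (hνmod k)
  have hyR : ∀ k : ℕ, ((y k : ℤ) : ℝ) ^ 4 + R₂.eval ((ν k : ℕ) : ℝ) * ((y k : ℤ) : ℝ) ^ 2
      + R₁.eval ((ν k : ℕ) : ℝ) * ((y k : ℤ) : ℝ) + R₀.eval ((ν k : ℕ) : ℝ) = 0 := by
    intro k
    have h := congrArg (fun q : ℚ => (q : ℝ)) (hy k)
    simp only [Rat.cast_add, Rat.cast_mul, Rat.cast_pow, Rat.cast_intCast, Rat.cast_zero,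
      Int.cast_natCast] at h
    have c2 := eval_map_cast A₂ ((ν k : ℕ) : ℚ)
    have c1 := eval_map_cast A₁ ((ν k : ℕ) : ℚ)
    have c0 := eval_map_cast A₀ ((ν k : ℕ) : ℚ)
    simp only [Rat.cast_natCast] at c2 c1 c0
    rw [hR₂, hR₁, hR₀, c2, c1, c0]
    exact h
  have hcolex : ∀ k : ℕ, ∃ η ∈ s, |((y k : ℤ) : ℝ) - (P η).eval ((ν k : ℕ) : ℝ)|
      ≤ C₀ / ((ν k : ℕ) : ℝ) := fun k =>
    happrox (ν k) (by have := hνge k; omega) _ (hyR k)
  choose col hcols hcol using hcolex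
  have hsmall : ∀ k : ℕ, C₀ / ((ν k : ℕ) : ℝ) < 1 / 2 ^ (d + 1) := by
    intro k
    have hνT : (T : ℝ) < ((ν k : ℕ) : ℝ) := by
      have := hνge k
      have : T < ν k := by omega
      exact_mod_cast this
    have hνpos : (0 : ℝ) < ((ν k : ℕ) : ℝ) := lt_of_le_of_lt (Nat.cast_nonneg T) hνT
    rw [div_lt_div_iff₀ hνpos (by positivity)]
    linarith
  -- van der Waerden
  obtain ⟨a, ha, b, c, hmono⟩ := exists_mono_ap (κ := ↥s)
    (fun k => (⟨col k, hcols k⟩ : ↥s)) (4 * d + 2)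
  have hmono' : ∀ j < 4 * d + 2, col (a * j + b) = c.1 := fun j hj =>
    congrArg Subtype.val (hmono j hj)
  set g : ℕ → ℤ := fun j => y (a * j + b) with hg
  set U : ℝ[X] := (P c.1).comp (C (((n₁ + b * Dn : ℕ) : ℝ)) + C (((a * Dn : ℕ) : ℝ)) * X)
    with hU
  have hUdeg : U.natDegree ≤ d := by
    refine (natDegree_comp_le).trans ?_
    calc (P c.1).natDegree * (C (((n₁ + b * Dn : ℕ) : ℝ)) + C (((a * Dn : ℕ) : ℝ)) * X).natDegree
        ≤ d * 1 := Nat.mul_le_mul (hdeg c.1 c.2) (natDegree_lin_le _ _)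
      _ = d := mul_one d
  have hUeval : ∀ j : ℕ, U.eval (j : ℝ) = (P c.1).eval ((ν (a * j + b) : ℕ) : ℝ) := by
    intro j
    rw [hU, eval_comp]
    congr 1
    simp only [eval_add, eval_C, eval_mul, eval_X, hν]
    push_cast; ring
  have hclose : ∀ j < 4 * d + 2, |(g j : ℝ) - U.eval (j : ℝ)| < 1 / 2 ^ (d + 1) := by
    intro j hj
    rw [hUeval j, ← hmono' j hj]
    exact lt_of_le_of_lt (hcol (a * j + b)) (hsmall _)
  obtain ⟨Q₀, hQ₀deg, hQ₀⟩ := int_seq_eq_poly d (4 * d + 2) g U hUdeg hclose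
  -- back to the variable `n`
  set ν₀ : ℚ := ((n₁ + b * Dn : ℕ) : ℚ) with hν₀
  set ν₁ : ℚ := ((a * Dn : ℕ) : ℚ) with hν₁
  have hν₁ne : ν₁ ≠ 0 := by
    rw [hν₁]
    have : 0 < a * Dn := Nat.mul_pos ha hDnpos
    exact_mod_cast this.ne'
  set Q : ℚ[X] := Q₀.comp (C (-ν₀ / ν₁) + C (1 / ν₁) * X) with hQ
  have hQdeg : Q.natDegree ≤ d := by
    refine (natDegree_comp_le).trans ?_
    calc Q₀.natDegree * (C (-ν₀ / ν₁) + C (1 / ν₁) * X).natDegree
        ≤ d * 1 := Nat.mul_le_mul hQ₀deg (natDegree_lin_le _ _)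
      _ = d := mul_one d
  have hνcast : ∀ j : ℕ, ((ν (a * j + b) : ℕ) : ℚ) = ν₀ + ν₁ * (j : ℚ) := by
    intro j
    simp only [hν, hν₀, hν₁]
    push_cast; ring
  have hQeval : ∀ j : ℕ, Q.eval (ν₀ + ν₁ * (j : ℚ)) = Q₀.eval (j : ℚ) := by
    intro j
    rw [hQ, eval_comp]
    congr 1
    simp only [eval_add, eval_C, eval_mul, eval_X]
    field_simp
    ring
  have hinj : Function.Injective (fun j : ℕ => ν₀ + ν₁ * (j : ℚ)) := by
    intro i j hij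
    have h1 : ν₁ * (i : ℚ) = ν₁ * (j : ℚ) := add_left_cancel hij
    have h2 : (i : ℚ) = (j : ℚ) := mul_left_cancel₀ hν₁ne h1
    exact_mod_cast h2
  have hzero : Q ^ 4 + A₂ * Q ^ 2 + A₁ * Q + A₀ = 0 := by
    apply quartic_zero_of_many_roots A₂ A₁ A₀ Q d h₂ h₁ h₀ hQdeg
      ((Finset.range (4 * d + 2)).image (fun j : ℕ => ν₀ + ν₁ * (j : ℚ)))
    · rw [Finset.card_image_of_injective _ hinj, Finset.card_range]; omega
    · intro x hx
      obtain ⟨j, hj, rfl⟩ := Finset.mem_image.mp hx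
      have hj' := Finset.mem_range.mp hj
      rw [hQeval j, ← hQ₀ j hj', ← hνcast j]
      have h := hy (a * j + b)
      simp only [Int.cast_natCast] at h
      exact h
  exact hno Q hzero

/-- The discriminant step for the `3`-division quartic. -/
theorem sep_of_disc (α β η : ℝ) (hdisc : 4 * α ^ 3 + 27 * β ^ 2 ≠ 0)
    (hf : η ^ 4 + 18 * α * η ^ 2 + 108 * β * η + -27 * α ^ 2 = 0) :
    4 * η ^ 3 + 2 * (18 * α) * η + 108 * β ≠ 0 := by
  intro hf'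
  have h1 : 3 * (4 * α ^ 3 + 27 * β ^ 2) * η = 0 := by
    linear_combination (β - α * η / 9) * hf + (-β * η / 4 + α ^ 2 / 4 + α * η ^ 2 / 36) * hf'
  rcases mul_eq_zero.mp h1 with h | h
  · rcases mul_eq_zero.mp h with h3 | h3
    · norm_num at h3
    · exact hdisc h3
  · subst h
    have hβ : β = 0 := by linarith
    have hα : α = 0 := by
      have : α ^ 2 = 0 := by linarith
      exact pow_eq_zero_iff (two_ne_zero) |>.mp this
    apply hdisc
    rw [hα, hβ]; ring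

/-- **(I-b) in the shape used by S52**: the `3`-division quartic
`y^4 + 18 a(n) y^2 + 108 b(n) y - 27 a(n)^2`. -/
theorem exists_int_no_root (a b : ℤ[X]) (d : ℕ) (ha : a.natDegree ≤ 2 * d)
    (hb : b.natDegree ≤ 3 * d)
    (hdisc : 4 * (a.coeff (2 * d)) ^ 3 + 27 * (b.coeff (3 * d)) ^ 2 ≠ 0)
    (hno : ∀ Q : ℚ[X], Q ^ 4 + 18 * a.map (Int.castRingHom ℚ) * Q ^ 2
      + 108 * b.map (Int.castRingHom ℚ) * Q - 27 * (a.map (Int.castRingHom ℚ)) ^ 2 ≠ 0)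
    (n₀ D K : ℤ) (hD : 0 < D) :
    ∃ n : ℤ, K ≤ n ∧ n ≡ n₀ [ZMOD D] ∧
      ∀ y : ℤ, y ^ 4 + 18 * a.eval n * y ^ 2 + 108 * b.eval n * y - 27 * (a.eval n) ^ 2 ≠ 0 := by
  set aq : ℚ[X] := a.map (Int.castRingHom ℚ) with haq
  set bq : ℚ[X] := b.map (Int.castRingHom ℚ) with hbq
  have haqd : aq.natDegree ≤ 2 * d := (natDegree_map_le).trans ha
  have hbqd : bq.natDegree ≤ 3 * d := (natDegree_map_le).trans hb
  have hA₂ : (C 18 * aq).natDegree ≤ 2 * d := (natDegree_C_mul_le _ _).trans haqd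
  have hA₁ : (C 108 * bq).natDegree ≤ 3 * d := (natDegree_C_mul_le _ _).trans hbqd
  have hA₀ : (C (-27) * aq ^ 2).natDegree ≤ 4 * d := by
    refine (natDegree_C_mul_le _ _).trans ((natDegree_pow_le).trans ?_)
    have := Nat.mul_le_mul_left 2 haqd
    omega
  have c2 : (C 18 * aq).coeff (2 * d) = 18 * (a.coeff (2 * d) : ℚ) := by
    rw [coeff_C_mul, haq, coeff_map]; simp
  have c1 : (C 108 * bq).coeff (3 * d) = 108 * (b.coeff (3 * d) : ℚ) := by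
    rw [coeff_C_mul, hbq, coeff_map]; simp
  have c0 : (C (-27) * aq ^ 2).coeff (4 * d) = -27 * (a.coeff (2 * d) : ℚ) ^ 2 := by
    rw [coeff_C_mul]
    have h4 : 4 * d = 2 * (2 * d) := by ring
    rw [h4, coeff_pow_of_natDegree_le haqd, haq, coeff_map]; simp
  have hdiscR : 4 * ((a.coeff (2 * d) : ℤ) : ℝ) ^ 3 + 27 * ((b.coeff (3 * d) : ℤ) : ℝ) ^ 2 ≠ 0 := by
    exact_mod_cast hdisc
  obtain ⟨n, hnK, hnmod, hn⟩ := exists_int_no_root_quartic (C 18 * aq) (C 108 * bq)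
    (C (-27) * aq ^ 2) d hA₂ hA₁ hA₀
    (by
      intro η hη
      rw [c2, c1] at hη ⊢
      rw [c0] at hη
      push_cast at hη ⊢
      exact sep_of_disc _ _ η hdiscR hη)
    (by
      intro Q hQ
      apply hno Q
      have e1 : (C (18 : ℚ) : ℚ[X]) = 18 := map_ofNat C 18
      have e2 : (C (108 : ℚ) : ℚ[X]) = 108 := map_ofNat C 108
      have e3 : (C (-27 : ℚ) : ℚ[X]) = -27 := by rw [map_neg, map_ofNat]
      rw [e1, e2, e3] at hQ
      linear_combination hQ)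
    n₀ D K hD
  refine ⟨n, hnK, hnmod, fun y hy => hn y ?_⟩
  have e2 : aq.eval (n : ℚ) = ((a.eval n : ℤ) : ℚ) := by
    rw [haq]; exact eval_intCast_map (Int.castRingHom ℚ) a n
  have e1 : bq.eval (n : ℚ) = ((b.eval n : ℤ) : ℚ) := by
    rw [hbq]; exact eval_intCast_map (Int.castRingHom ℚ) b n
  have h := congrArg (fun z : ℤ => (z : ℚ)) hy
  simp only [Int.cast_sub, Int.cast_add, Int.cast_mul, Int.cast_pow, Int.cast_ofNat,
    Int.cast_zero] at h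
  simp only [eval_mul, eval_C, eval_pow, e2, e1]
  linarith

end Fermat.Agent.S52.H12
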